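import Fermat.Agent.LR26.Lift
import Fermat.Agent.H01.P.GeoNew

/-!
# Representatives which are units at the cusp infinity
-/

set_option autoImplicit false
set_option linter.unusedSectionVars false
set_option linter.style.haveILetI false
set_option maxSynthPendingDepth 3

noncomputable section

attribute [-instance] HahnSeries.instModule HahnSeries.instSMul HahnSeries.instDistribMulAction
  HahnSeries.instSMulZeroClass

namespace Fermat.Agent.LR26

open ModularCurve AlgebraicCurve Fermat.Agent.Igusa Fermat.Agent.Q Fermat.Agent.H11Q Fermat.Agent.P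

local notation "kk" => IsLocalRing.ResidueField
local notation "Qb" => AlgebraicClosure ℚ

section Abs

variable {K : Type*} [Field K] [CharZero K] [IsAlgClosed K] [Algebra ℚ K]
  [Algebra.IsAlgebraic ℚ K] {p : ℕ} [hp : Fact p.Prime] {D : ALData K p}
  {A : ValuationSubring K} {Eb : IntermediateField (kk A) (LaurentSeries (kk A))} {m : ℕ}

theorem exists_unit_mul (R : D.RedHyp A Eb) (lp : LevelPack A D.S₀ Eb p) (hm : m ≠ 0) {f : D.S}
    (hf : InT (R.twoComp lp) m f) : ∃ k : D.S, k ≠ 0 ∧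
      UnitLead A ((f * k ^ m : D.S) : LaurentSeries K) 0 ∧
      NumF ((f * k ^ m : D.S) : LaurentSeries K) ∧ Red A ((f * k ^ m : D.S) : LaurentSeries K) 1 := by
  have hA := R.lies
  have hqA := natCast_nonunits (p := p) hA
  haveI : FF.FunField K D.S := R.fun₁
  haveI := isAlgebraic_int K
  obtain ⟨y, hy0, ⟨W⟩⟩ := hf.exists_tw hp.out hqA hm
  obtain ⟨ν, -⟩ := (R.raw lp).exists_nodeData hp.out hqA
  obtain ⟨n₀, h0⟩ := exists_unitLead hp.out hqA ν W
  obtain ⟨n₁, h1⟩ := lift_low lp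
  obtain ⟨z, a, hz0, hzR, hzl, hal, hac, har⟩ := h0 (max n₀ n₁) (le_max_left _ _)
  obtain ⟨b, hb, hbi, hbr, hbl⟩ := h1 (max n₀ n₁) (le_max_right _ _) (a 0) (a 0).2 (hal 0)
  set n := max n₀ n₁ with hn
  have hbU : UnitLead A (b : LaurentSeries K) (-(n : ℤ)) := by
    refine ⟨hbi, hbl, ?_⟩
    rw [← rd_coeff, hbr]
    exact hac 0
  have hbN : NumF (b : LaurentSeries K) := by
    have h2 := ((R.twoComp lp).nice (D.ι b) (D.rg_ι hb) 0).1
    have h3 : (R.twoComp lp).e 0 (D.ι b) = (b : LaurentSeries K) := D.e_zero_ι b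
    rwa [h3] at h2
  have hb0 : b ≠ 0 := fun h => hbU.ne_zero (by rw [h]; rfl)
  have hιb0 : D.ι b ≠ 0 := D.ι_ne_zero hb0
  set g : D.S := z ^ m * (f * y ^ m) with hg
  have hge : (R.twoComp lp).e 0 g = (g : LaurentSeries K) := D.e_zero g
  have hg1 : UnitLead A (g : LaurentSeries K) (m * (-n)) := by rw [← hge]; exact hzl 0
  have hg2 : NumF (g : LaurentSeries K) := by
    rw [← hge]; exact ((R.twoComp lp).nice g hzR 0).1
  have hg3 : rd A (g : LaurentSeries K) = (rd A (b : LaurentSeries K)) ^ m := by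
    rw [← hge, hbr]; exact har 0
  refine ⟨y * z * (D.ι b)⁻¹, mul_ne_zero (mul_ne_zero hy0 hz0) (inv_ne_zero hιb0), ?_⟩
  have he : ((f * (y * z * (D.ι b)⁻¹) ^ m : D.S) : LaurentSeries K) =
      (g : LaurentSeries K) * ((b : LaurentSeries K)⁻¹) ^ m := by
    have h2 : ((D.ι b : D.S) : LaurentSeries K) = (b : LaurentSeries K) := D.coe_ι b
    have h4 : f * (y * z * (D.ι b)⁻¹) ^ m = g * ((D.ι b)⁻¹) ^ m := by
      rw [hg, mul_pow, mul_pow]; ring
    rw [h4, ← h2]
    rfl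
  rw [he]
  refine ⟨?_, hg2.mul (NumF.pow' (hbU.numF_inv hbN) m), ?_⟩
  · have h2 := hg1.mul (hbU.inv.1.pow m)
    rwa [show (m : ℤ) * -n + m * - -n = 0 by ring] at h2
  · have h2 := (red_rd hg1.int).mul (((red_rd hbi).inv hbU.rd_ne_zero).pow m)
    rwa [hg3, ← mul_pow, mul_inv_cancel₀ hbU.rd_ne_zero, one_pow] at h2

end Abs

section Norm

variable {A : ValuationSubring Qb} {M p : ℕ} [NeZero M] [hp : Fact p.Prime] {m : ℕ}
  (hpM : Nat.Coprime p M)

/-- A class of `K_∞ ∩ w K_∞` has a Kummer function which is a unit power series at infinity,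
with reduction `1`. -/
theorem exists_unit_rep (hA : A.LiesOverPrime p) (hm : m ≠ 0)
    (lp : LevelPack A (modularFunctionFieldBar M) (modularFunctionFieldFullC (kk A) M) p)
    {x : JZero (M * p)} (hx : x ∈ TSub A M p m hpM) :
    ∃ f : modularFunctionFieldBar (M * p), H05.Kum m x f ∧
      UnitLead A (f : LaurentSeries Qb) 0 ∧ NumF (f : LaurentSeries Qb) ∧
      Red A (f : LaurentSeries Qb) 1 := by
  obtain ⟨f, hf⟩ := H05.exists_kum (nsmul_eq_zero_of_mem_KInf hx.1)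
  have hfT := inT_of_mem_TSub hpM hA lp hm hx hf
  obtain ⟨k, hk, h1, h2, h3⟩ : ∃ k : modularFunctionFieldBar (M * p), k ≠ 0 ∧
      UnitLead A ((f * k ^ m : modularFunctionFieldBar (M * p)) : LaurentSeries Qb) 0 ∧
      NumF ((f * k ^ m : modularFunctionFieldBar (M * p)) : LaurentSeries Qb) ∧
      Red A ((f * k ^ m : modularFunctionFieldBar (M * p)) : LaurentSeries Qb) 1 :=
    exists_unit_mul (redHyp hpM hA) lp hm hfT
  exact ⟨f * k ^ m, hf.mul_pow' hk, h1, h2, h3⟩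

end Norm

section Iterate

variable {K : Type*} [Field K] [CharZero K] [Algebra ℚ K] [Algebra.IsAlgebraic ℚ K]
  {A : ValuationSubring K} {p : ℕ} [hp : Fact p.Prime] {ζ : Kˣ} {u w : K}

theorem unitLead_twist (hζ : ζ ^ p = 1) {x : LaurentSeries K} {n : ℤ} (hx : UnitLead A x n) :
    UnitLead A (twist ζ x) n := by
  have h1 : ∀ i : ℤ, ((ζ ^ i : Kˣ) : K) ∈ A := fun i =>
    zpow_mem_of_pow_eq_one hp.out.ne_zero hζ i
  refine ⟨fun i => ?_, fun i hi => ?_, ?_⟩
  · rw [twist_coeff]; exact mul_mem (hx.int i) (h1 i)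
  · rw [twist_coeff, hx.below i hi, zero_mul]
  · rw [twist_coeff, resid_mul A (hx.int n) (h1 n)]
    refine mul_ne_zero hx.lead ?_
    refine (resid_ne_zero_iff A (h1 n)).2 ⟨?_, Units.ne_zero _⟩
    rw [← Units.val_inv_eq_inv_val, ← zpow_neg]
    exact h1 (-n)

theorem numF_twist {x : LaurentSeries K} (hx : NumF x) : NumF (twist ζ x) := by
  classical
  obtain ⟨S, hS⟩ := hx
  refine ⟨insert (ζ : K) S, fun i => ?_⟩
  rw [twist_coeff]
  refine mul_mem (closure_mono' (Finset.subset_insert _ _) (hS i)) ?_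
  rw [Units.val_zpow_eq_zpow_val]
  exact Subfield.zpow_mem _ (Subfield.subset_closure (by simp)) i

theorem unitLead_nT (hζ : ζ ^ p = 1) {x : LaurentSeries K} (hx : UnitLead A x 0) :
    UnitLead A (nT ζ p x) 0 := by
  classical
  rw [nT]
  refine Finset.prod_induction _ (fun z => UnitLead A z 0) (fun a b ha hb => ?_) ?_ fun i _ => ?_
  · simpa using ha.mul hb
  · refine ⟨IsInt.one, fun i hi => ?_, ?_⟩
    · rw [HahnSeries.coeff_one, if_neg hi.ne]
    · rw [HahnSeries.coeff_one, if_pos rfl, resid_one]; exact one_ne_zero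
  · exact unitLead_twist (pow_val_pow hζ _) hx

theorem numF_nT {x : LaurentSeries K} (hx : NumF x) : NumF (nT ζ p x) := by
  classical
  rw [nT]
  refine Finset.prod_induction _ (fun z => NumF z) (fun a b ha hb => ha.mul hb)
    (numF_of_mem (one_mem _)) fun i _ => ?_
  exact numF_twist hx

theorem unitLead_uU (hζ : ζ ^ p = 1) {x : LaurentSeries K} (hx : UnitLead A x 0) :
    UnitLead A (uU ζ p x) 0 := by
  have h := unitLead_nT hζ hx
  have hp0 : (0 : ℤ) < p := by exact_mod_cast hp.out.pos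
  refine ⟨fun i => ?_, fun i hi => ?_, ?_⟩
  · rw [uU, P.uOp_coeff]; exact h.int _
  · rw [uU, P.uOp_coeff]; exact h.below _ (by nlinarith)
  · rw [uU, P.uOp_coeff, mul_zero]; exact h.lead

theorem numF_uU {x : LaurentSeries K} (hx : NumF x) : NumF (uU ζ p x) := by
  obtain ⟨S, hS⟩ := numF_nT (p := p) (ζ := ζ) hx
  exact ⟨S, fun i => by rw [uU, P.uOp_coeff]; exact hS _⟩

/-- one more step raises the level `p/(p-1)` strictly -/
theorem uU_big (hA : A.LiesOverPrime p) (hζ : IsPrimitiveRoot ζ p) (hw : Varpi A p ζ u w)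
    {f : LaurentSeries K} (hf : f - 1 ∈ cg A (w ^ p)) :
    ∃ h, Red A h 0 ∧ uU ζ p f = 1 + HahnSeries.C (w ^ p) * h := by
  obtain ⟨y, hy, hfy⟩ := hf
  have hf1 : f = 1 + HahnSeries.C (w ^ p) * y := by rw [← hfy]; ring
  obtain ⟨h', ⟨v', hv'⟩, he⟩ := uOp_nT_one_add hA hζ (pow_mem hw.mem p) hy
  obtain ⟨v, hv⟩ := uOp_nT_mem_VL hA hζ hy
  have hp2 := hp.out.two_le
  have h1 : (w ^ p) ^ p = w ^ p * w ^ (p * (p - 1)) := by
    rw [← pow_mul, ← pow_add]
    congr 1
    obtain ⟨k, rfl⟩ : ∃ k, p = k + 1 := ⟨p - 1, by omega⟩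
    rw [Nat.add_sub_cancel]
    ring
  have hres : ∀ k : ℕ, k ≠ 0 → resid A (w ^ k) = 0 := fun k hk => by
    rw [resid_pow' hw.mem, hw.res, zero_pow hk]
  refine ⟨HahnSeries.C (w ^ (p * (p - 1))) * P.uOp p (nT ζ p y) + HahnSeries.C (p : K) * h', ?_, ?_⟩
  · have h2 := (red_C (pow_mem hw.mem (p * (p - 1)))).mul hv
    rw [hres _ (Nat.mul_ne_zero (by omega) (by omega)), map_zero, zero_mul] at h2
    have h3 := (red_C (natCast_mem A p)).mul hv'
    have h4 : resid A (p : K) = 0 := by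
      rw [hw.p_eq, resid_mul A hw.u_mem (pow_mem hw.mem _), hres _ (by omega), mul_zero]
    rw [h4, map_zero, zero_mul] at h3
    have h5 := h2.add h3
    rwa [add_zero] at h5
  · rw [uU, hf1, he, h1, map_mul, map_mul]
    ring

theorem iterate_uU_unitLead (hζ : ζ ^ p = 1) {f : LaurentSeries K} (hf : UnitLead A f 0)
    (n : ℕ) : UnitLead A ((uU ζ p)^[n] f) 0 := by
  induction n with
  | zero => exact hf
  | succ n ih => rw [Function.iterate_succ_apply']; exact unitLead_uU hζ ih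

theorem iterate_uU_numF {f : LaurentSeries K} (hf : NumF f) (n : ℕ) :
    NumF ((uU ζ p)^[n] f) := by
  induction n with
  | zero => exact hf
  | succ n ih => rw [Function.iterate_succ_apply']; exact numF_uU ih

end Iterate

section Main

variable {A : ValuationSubring Qb} {M p : ℕ} [NeZero M] [hp : Fact p.Prime] {ζ u w : Qb}
  (hpM : Nat.Coprime p M)

theorem exists_root_inf (hA : A.LiesOverPrime p) (hw : Varpi A p ζ u w)
    (lp : LevelPack A (modularFunctionFieldBar M) (modularFunctionFieldFullC (kk A) M) p)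
    {y : JZero (M * p)} (h0 : y ∈ KInf A M p p) (h1 : wS M p hpM • y ∈ KInf A M p p)
    (ha0 : aStar M p y = 0) (ha1 : aStar M p (wS M p hpM • y) = 0) :
    ∃ (f : modularFunctionFieldBar (M * p)) (H s : LaurentSeries Qb), H05.Kum p y f ∧ H ∈ FL A ∧
      H ^ p = (f : LaurentSeries Qb) ∧ Red A s 0 ∧ H = 1 + HahnSeries.C w * s := by
  have hζ0 : ζ ≠ 0 := hw.prim.ne_zero hp.out.ne_zero
  have hζ : IsPrimitiveRoot (Units.mk0 ζ hζ0) p := by
    rw [← IsPrimitiveRoot.coe_units_iff]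
    exact hw.prim
  obtain ⟨f, hf, hfU, hfN, hfr⟩ := exists_unit_rep hpM hA hp.out.ne_zero lp (x := y)
    ((mem_TSub hpM).2 ⟨h0, h1⟩)
  obtain ⟨n, hn⟩ := exists_iterate_uU (ζ := Units.mk0 ζ hζ0) hA hζ (u := u) (w := w) hw
    (full_le_FL (M * p) (mem_full_of_bar f.2)) hfr
  obtain ⟨⟨f₁, hf₁, he₁⟩, -⟩ := kum_iterate_uU hpM hζ hp.out.ne_zero hf ha0 ha1 (n + 1)
  obtain ⟨h, hh, hhe⟩ := uU_big hA hζ (u := u) (w := w) hw (hn (2 * n + 1) (by omega))
  have he₂ : (f₁ : LaurentSeries Qb) = 1 + HahnSeries.C (w ^ p) * h := by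
    rw [he₁, ← hhe, ← Function.iterate_succ_apply' (uU (Units.mk0 ζ hζ0) p)]
    rfl
  obtain ⟨H, hH, hHN, hHp, s, hs, hHs⟩ := exists_local_root (x := (f₁ : LaurentSeries Qb))
    (V := 1) (h := h) (n := 0) hA hw (by
      rw [mul_zero, he₁]
      exact iterate_uU_unitLead hζ.pow_eq_one hfU _) (by
      rw [he₁]
      exact iterate_uU_numF hfN _) IsInt.one (numF_of_mem (one_mem _)) hh (by
      rw [one_pow, one_mul, he₂])
  refine ⟨f₁, H, s, hf₁, ?_, hHp, hs, by rw [hHs, one_mul]⟩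
  exact DD_le_FL (mem_DD_iff.mpr ⟨hHN, hH.int.bdd⟩)

/-- **Local roots.** -/
theorem exists_local_roots (h2 : 2 ∣ M) (hA : A.LiesOverPrime p) (hw : Varpi A p ζ u w)
    {y : JZero (M * p)} (h0 : y ∈ KInf A M p p) (h1 : wS M p hpM • y ∈ KInf A M p p)
    (ha0 : aStar M p y = 0) (ha1 : aStar M p (wS M p hpM • y) = 0)
    {f : modularFunctionFieldBar (M * p)} (hf : H05.Kum p y f) :
    ∀ j : Fin 2, ∃ (k : modularFunctionFieldBar (M * p)) (H s : LaurentSeries Qb), k ≠ 0 ∧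
      H ∈ FL A ∧ H ^ p = (alData M p hpM).e j (f * k ^ p) ∧ Red A s 0 ∧
      H = 1 + HahnSeries.C w * s := by
  obtain ⟨lp⟩ := H11Q.hasPacks hp.out hA M hpM (Or.inl h2)
  intro j
  rcases fin2_cases j with rfl | rfl
  · obtain ⟨g, H, s, hg, hH, hHp, hs, hHs⟩ := exists_root_inf hpM hA hw lp h0 h1 ha0 ha1
    obtain ⟨k, hk, hgk⟩ := exists_kum_eq_mul_pow hp.out.ne_zero hg hf
    refine ⟨k, H, s, hk, hH, ?_, hs, hHs⟩
    rw [hHp, ← hgk]
    exact ((alData M p hpM).e_zero g).symm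
  · obtain ⟨g, H, s, hg, hH, hHp, hs, hHs⟩ := exists_root_inf hpM hA hw lp
      (y := wS M p hpM • y) h1 (by rw [wS_wS]; exact h0) ha1 (by rw [wS_wS]; exact ha0)
    have hg' := hg.smul (wS M p hpM)
    rw [wS_wS] at hg'
    obtain ⟨k, hk, hgk⟩ := exists_kum_eq_mul_pow hp.out.ne_zero hg' hf
    refine ⟨k, H, s, hk, hH, ?_, hs, hHs⟩
    rw [hHp, ← hgk]
    exact ((alData M p hpM).e_one_w g).symm

end Main

end Fermat.Agent.LR26
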