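import Fermat.Agent.H11Q.LevelPack
import Fermat.Agent.H11Q.Class

/-!
# Lifts with bounded polar order; representatives with unit leading coefficients
-/

set_option autoImplicit false
set_option linter.unusedSectionVars false

noncomputable section

attribute [-instance] HahnSeries.instModule HahnSeries.instSMul HahnSeries.instDistribMulAction
  HahnSeries.instSMulZeroClass

namespace Fermat.Agent.LR26

open ModularCurve IsLocalRing AlgebraicCurve Module Fermat.Agent.H11Q

section Lift

variable {K : Type*} [Field K] {A : ValuationSubring K}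
  {E : IntermediateField K (LaurentSeries K)}
  {Eb : IntermediateField (ResidueField A) (LaurentSeries (ResidueField A))} {q : ℕ}

theorem polInf_sub {x y : E} (hx : PolInf x) (hy : PolInf y) : PolInf (x - y) :=
  fun v hv => sub_mem (hx v hv) (hy v hv)

theorem polInf_smul {x : E} (hx : PolInf x) (c : K) : PolInf (c • x) := by
  intro v hv
  rw [Algebra.smul_def]
  exact mul_mem (v.algebraMap_mem' c) (hx v hv)

/-- reductions of bounded polar order lift to functions of the same polar order -/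
theorem lift_low (lp : LevelPack A E Eb q) : ∃ n₀ : ℕ, ∀ n : ℕ, n₀ ≤ n → ∀ a ∈ lp.O,
    Low a (-(n : ℤ)) → ∃ x : E, PolInf x ∧ IsInt A (x : LaurentSeries K) ∧
      rd A (x : LaurentSeries K) = a ∧ Low (x : LaurentSeries K) (-(n : ℤ)) := by
  obtain ⟨n₀, hex⟩ := lp.exact
  refine ⟨n₀, fun n hn a ha hal => ?_⟩
  obtain ⟨x, hx, hxi, hxr⟩ := lp.lift a ha
  have key : ∀ d : ℕ, ∀ x : E, PolInf x → IsInt A (x : LaurentSeries K) →
      rd A (x : LaurentSeries K) = a → Low (x : LaurentSeries K) (-((n + d : ℕ) : ℤ)) →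
      ∃ x : E, PolInf x ∧ IsInt A (x : LaurentSeries K) ∧
        rd A (x : LaurentSeries K) = a ∧ Low (x : LaurentSeries K) (-(n : ℤ)) := by
    intro d
    induction d with
    | zero => exact fun x h1 h2 h3 h4 => ⟨x, h1, h2, h3, h4⟩
    | succ d ih =>
      intro x h1 h2 h3 h4
      obtain ⟨y, hy, hyl⟩ := hex (n + (d + 1)) (by omega)
      set N : ℤ := -((n + (d + 1) : ℕ) : ℤ) with hN
      have hyN := (resid_ne_zero_iff A (hyl.int N)).1 hyl.lead
      have hxN : resid A ((x : LaurentSeries K).coeff N) = 0 := by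
        rw [← rd_coeff, h3]
        exact hal _ (by rw [hN]; push_cast; omega)
      set c : K := (x : LaurentSeries K).coeff N * ((y : LaurentSeries K).coeff N)⁻¹ with hc
      have hcA : c ∈ A := mul_mem (h2 N) hyN.1
      have hcr : resid A c = 0 := by rw [hc, resid_mul A (h2 N) hyN.1, hxN, zero_mul]
      have hcoe : ((x - c • y : E) : LaurentSeries K) =
        (x : LaurentSeries K) - c • (y : LaurentSeries K) := rfl
      refine ih (x - c • y) (polInf_sub h1 (polInf_smul hy c)) ?_ ?_ ?_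
      · rw [hcoe]; exact h2.sub (hyl.int.smul hcA)
      · rw [hcoe, rd_sub h2 (hyl.int.smul hcA), rd_smul hcA hyl.int, hcr, zero_smul, sub_zero, h3]
      · intro i hi
        rw [hcoe, HahnSeries.coeff_sub, coeff_smul']
        rcases lt_or_ge i N with h | h
        · rw [h4 i h, hyl.below i h, mul_zero, sub_zero]
        · have hiN : i = N := by rw [hN] at h ⊢; push_cast at h ⊢; omega
          rw [hiN, hc, mul_assoc, inv_mul_cancel₀ hyN.2, mul_one, sub_self]
  refine key ((x : LaurentSeries K).order.natAbs) x hx hxi hxr fun i hi => ?_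
  apply HahnSeries.coeff_eq_zero_of_lt_order
  rw [Nat.cast_add] at hi
  omega

end Lift

section Tw

variable {K : Type*} [Field K] {A : ValuationSubring K} {F : Type*} [Field F] [Algebra K F]
variable {T : TwoComp K A F} {m : ℕ} {f : F}
variable [IsAlgClosed K] [FF.FunField K F]
variable [CharZero K] [Algebra.IsAlgebraic ℤ K] {q : ℕ} (hq : q.Prime)
  (hqA : (q : K) ∈ A.nonunits)

include hq hqA

/-- representatives with unit leading coefficients, with `m`-th powers as reductions -/
theorem exists_unitLead (ν : NodeData T) (w : Tw T m f) : ∃ n₀ : ℕ, ∀ n : ℕ, n₀ ≤ n →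
    ∃ (z : F) (a : Fin 2 → T.O), z ≠ 0 ∧ z ^ m * f ∈ T.Rg ∧
      (∀ j, UnitLead A (T.e j (z ^ m * f)) (m * (-n))) ∧
      (∀ j, Low (a j : LaurentSeries (ResidueField A)) (-n)) ∧
      (∀ j, (a j : LaurentSeries (ResidueField A)).coeff (-n) ≠ 0) ∧
      ∀ j, rd A (T.e j (z ^ m * f)) = (a j : LaurentSeries (ResidueField A)) ^ m := by
  obtain ⟨ζ, hζ, n₀, h⟩ := w.exists_zeta hq hqA ν
  obtain ⟨n₁, h1⟩ := exists_exact ν.α ν.α_surj
  obtain ⟨n₂, h2⟩ := exists_exact ν.β ν.β_surj
  refine ⟨max n₀ (max n₁ n₂), fun n hn => ?_⟩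
  obtain ⟨a, ha, ha', haα⟩ := h1 n (by omega)
  obtain ⟨b, hb, hb', hbβ⟩ := h2 n (by omega)
  have hX : (![a, b] : Fin 2 → T.O) ∈ XO T n := by
    intro j
    fin_cases j
    · exact ha
    · exact hb
  have hN : (![a, b] : Fin 2 → T.O) ∈ w.N n := by
    rw [h n (by omega) _ hX]
    intro i
    change ν.α i a = ζ i * ν.β i b
    rw [haα, hbβ, mul_zero]
  obtain ⟨z, hz, hi, hz2⟩ := w.mem_N.1 hN
  have hcoef : ∀ j, (w.r z j).coeff (-n) ≠ 0 := by
    intro j
    rw [← hz2]
    fin_cases j
    · exact ha'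
    · exact hb'
  have hlow : ∀ j, Low (w.r z j) (-n) := by
    intro j
    rw [← hz2]
    exact hX j
  have hr0 : ∀ j, w.r z j ≠ 0 := fun j h => hcoef j (by rw [h]; rfl)
  have hz0 : z ≠ 0 := by
    rintro rfl
    apply hr0 0
    rw [Tw.r, map_zero, rd_zero, zero_div]
  have hord : ∀ j, (w.r z j).order = -n := by
    intro j
    apply le_antisymm (HahnSeries.order_le_of_coeff_ne_zero (hcoef j))
    exact (low_iff (hr0 j)).1 (hlow j)
  obtain ⟨hzR, hzlow⟩ := w.mem_of_mem_M hz
  have hi' := (w.isInt_all hq hqA hzR).1 hi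
  have hne : z ^ m * f ≠ 0 := mul_ne_zero (pow_ne_zero _ hz0) w.f_ne
  have hrd : ∀ j, rd A (T.e j (z ^ m * f)) = (w.r z j) ^ m := fun j => by
    rw [w.r_pow (hi j) (hi' j)]
  refine ⟨z, ![a, b], hz0, hzR, ?_, hX, ?_, ?_⟩
  · intro j
    have h3 : (rd A (T.e j (z ^ m * f))).order = m * (-n) := by
      rw [hrd, HahnSeries.order_pow, hord, nsmul_eq_mul]
    have h4 := unitLead_of_order (A := A) (x := T.e j (z ^ m * f)) (hi' j)
      (by rw [hrd]; exact pow_ne_zero _ (hr0 j)) (by
        rw [h3]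
        exact (low_iff (TwoComp.e_ne_zero hne)).1 (hzlow j))
    rwa [h3] at h4
  · intro j
    rw [hz2]
    exact hcoef j
  · intro j
    rw [hrd, hz2]

end Tw

end Fermat.Agent.LR26
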